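/-
Program A (S42), consumer side: the top step (TOP42) (helper97; shapes of #1921 / #1992).

`s42_of_topHyp` : the frozen statement S42 (`∀ M > 0, P.EigenformResidualAttachmentAt M`) from
* `TopHyp` (integral eigenvalue lifts + `ModuleStatement` over `ℤ̄ ⧸ 𝔪`; see `S29/H97/Top29`), and
* `FreyLevelStatement P` (FLD): every residual representation and the mod `p` representation of
  the Frey curve are both trivial on `Gal(ℚ̄/F)` for some number field `F`, Galois over `ℚ`.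

`K := ℤ̄ ⧸ 𝔪`, `ψ := mk`, `ρ` from (RHO); trace and determinant are read off from the
characteristic polynomial `X² - a_ℓ X + ℓ`.
-/
import Mathlib
import Fermat.Prelude.Def_FreyPackage_EigenformResidualAttachment
import Fermat.Agent.S29.H97.Top29

set_option autoImplicit false
set_option linter.style.haveILetI false

open Polynomial CongruenceSubgroup WeierstrassCurve WeierstrassCurve.Affine.Point

noncomputable section

namespace Fermat.Agent.S42.H97

open Fermat.Agent.S29.H97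

local notation "Qbar" => AlgebraicClosure ℚ
local notation "Γ" => (AlgebraicClosure ℚ ≃ₐ[ℚ] AlgebraicClosure ℚ)

noncomputable local instance instDecEqQbarTop : DecidableEq (AlgebraicClosure ℚ) :=
  Classical.decEq _

/-! ### Trace and determinant from a quadratic characteristic polynomial -/

theorem trace_det_of_charpoly {K V : Type*} [Field K] [AddCommGroup V] [Module K V]
    [Module.Finite K V] (h2 : Module.finrank K V = 2) (f : Module.End K V) (t d : K)
    (h : LinearMap.charpoly f = X ^ 2 - C t * X + C d) :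
    LinearMap.trace K V f = t ∧ LinearMap.det f = d := by
  have hc1 : (LinearMap.charpoly f).coeff 1 = -t := by
    rw [h]
    simp [Polynomial.coeff_C, Polynomial.coeff_X_pow]
  have hc0 : (LinearMap.charpoly f).coeff 0 = d := by
    rw [h]
    simp
  constructor
  · let b : Module.Basis (Fin 2) K V := Module.finBasisOfFinrankEq K V h2
    rw [LinearMap.trace_eq_matrix_trace K b f, Matrix.trace_eq_neg_charpoly_coeff,
      LinearMap.charpoly_toMatrix, Fintype.card_fin]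
    show -(LinearMap.charpoly f).coeff 1 = t
    rw [hc1, neg_neg]
  · rw [LinearMap.det_eq_sign_charpoly_coeff, h2, hc0]
    simp

/-! ### The level statement (FLD) -/

/-- (FLD): a number field `F`, Galois over `ℚ`, such that `Gal(ℚ̄/F)` acts trivially on the
`p`-torsion of the Frey curve and through a given residual representation. -/
def FreyLevelStatement (P : FreyPackage) : Prop :=
  ∀ (κ : Type) [Field κ] (ρ : ResidualGaloisRep κ),
    ∃ (F : Type) (_ : Field F) (_ : NumberField F) (_ : IsGalois ℚ F)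
      (_ : Algebra F (AlgebraicClosure ℚ)) (_ : IsScalarTower ℚ F (AlgebraicClosure ℚ)),
      (AlgEquiv.restrictNormalHom (F := ℚ) (K₁ := AlgebraicClosure ℚ) F).ker ≤
        (galoisRepModuleEnd (S := ℚ) (K := AlgebraicClosure ℚ) P.freyCurve P.p).ker ⊓ ρ.ρ.ker

/-! ### (TOP42) -/

/-- **(TOP42), local form.** -/
theorem attachmentAt_of_topHypAt (P : FreyPackage) (hF : FreyLevelStatement P) (M : ℕ)
    (H : ∀ (g : CuspForm (Gamma0 M) 2), g.IsNormalizedEigenform →
      ∀ (𝔪 : Ideal (integralClosure ℤ ℂ)) [𝔪.IsMaximal],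
        (P.p : integralClosure ℤ ℂ) ∈ 𝔪 → TopHypAt M g P.p 𝔪) :
    P.EigenformResidualAttachmentAt M := by
  intro g hg 𝔪 h𝔪 hp𝔪
  haveI := h𝔪
  letI : Field (integralClosure ℤ ℂ ⧸ 𝔪) := Ideal.Quotient.field 𝔪
  haveI : CharP (integralClosure ℤ ℂ ⧸ 𝔪) P.p := charP_quotient_of_mem 𝔪 P.pp hp𝔪
  obtain ⟨a, ρ, ha, hchar, -⟩ := exists_residualGaloisRep_of_topHypAt P.pp 𝔪 hp𝔪 (H g hg 𝔪 hp𝔪)
  obtain ⟨F, iF, iNF, iGal, iAlg, iTower, hker⟩ := hF _ ρ
  have hℓp : ∀ ℓ : ℕ, ℓ.Prime → ¬ ℓ ∣ M → ℓ ≠ P.p → ¬ ℓ ∣ M * P.p := by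
    intro ℓ hℓ hℓM hℓne hdvd
    rcases (Nat.Prime.dvd_mul hℓ).mp hdvd with h | h
    · exact hℓM h
    · exact hℓne ((Nat.prime_dvd_prime_iff_eq hℓ P.pp).mp h)
  refine ⟨integralClosure ℤ ℂ ⧸ 𝔪, inferInstance, ZMod.algebra _ P.p, ρ.V, inferInstance,
    inferInstance, ρ.ρ, Ideal.Quotient.mk 𝔪, F, iF, iNF, iGal, iAlg, iTower, ?_, ρ.finrank_eq,
    hker, ?_, ?_⟩
  · rw [Ideal.mk_ker]
  · intro ℓ hℓ hℓM hℓne A hA τ hτ
    refine ⟨a ℓ, ha ℓ hℓ (hℓp ℓ hℓ hℓM hℓne), ?_⟩
    exact (trace_det_of_charpoly ρ.finrank_eq (ρ.ρ τ) (Ideal.Quotient.mk 𝔪 (a ℓ)) _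
      (hchar ℓ hℓ (hℓp ℓ hℓ hℓM hℓne) A hA τ hτ)).1
  · intro ℓ hℓ hℓM hℓne A hA τ hτ
    exact (trace_det_of_charpoly ρ.finrank_eq (ρ.ρ τ) (Ideal.Quotient.mk 𝔪 (a ℓ)) _
      (hchar ℓ hℓ (hℓp ℓ hℓ hℓM hℓne) A hA τ hτ)).2

/-- **(TOP42)**: `TopHyp` + (FLD) imply the frozen statement S42. -/
theorem s42_of_topHyp (P : FreyPackage) (hF : FreyLevelStatement P) (H : TopHyp) :
    ∀ M : ℕ, 0 < M → P.EigenformResidualAttachmentAt M := by
  intro M hM
  haveI : NeZero M := ⟨hM.ne'⟩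
  exact attachmentAt_of_topHypAt P hF M fun g hg 𝔪 _ hp𝔪 => H M g hg P.p P.pp 𝔪 hp𝔪

end Fermat.Agent.S42.H97
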